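import Mathlib
import Fermat.Agent.MU.R38.T.Defs
import Fermat.Agent.MU.Lib.MultRed.DecompQbar
import Fermat.Agent.Lib.Frey.Basic
import Fermat.Agent.Lib.MultRed.CharE1
import Fermat.Agent.MU.Lib.MultRed.Unipotent
import Fermat.Agent.MU.Lib.MultRed.NotInG1
import Fermat.Agent.MU.Lib.MultRed.NormalQbar
import Fermat.Agent.MU.Lib.MultRed.E0Tors
import Fermat.Agent.MU.Lib.MultRed.Main
import Fermat.Agent.R38.T.FreyData
import Fermat.Agent.Lib.MultRed.Core
import Fermat.Agent.MU.Lib.MultRed.Comp.Rho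
import Fermat.Agent.S05.H27.OfValuation
import Fermat.Agent.MU.Lib.MultRed.E0TorsQbar
import Fermat.Agent.Lib.MultRed.Comp.Cyc
import Fermat.Agent.Lib.MultRed.Comp.Half
import Fermat.Agent.MU.R38.Spine

section MergeWrap_R38_T_Asm -- from R38/T/Asm.lean

/-!
# Row 38, block T: assembly (owner: helper39)

`peuKummer_of_leaves`: the four leaves (`LeafPT`, `LeafKILL`, `LeafNOPT`, `LeafKUM`) give the
Kummer form of "peu ramifie" for the integral model `W`.
-/

set_option autoImplicit false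

open WeierstrassCurve WeierstrassCurve.Affine

namespace Fermat.Agent.R38T

open S05H75 Fermat.Agent.MultRed

section Abstract

variable {J : Type*} [AddCommGroup J]

/-- a point killed by `p` and by a number prime to `p` is zero -/
theorem eq_zero_of_nsmul_coprime {p m : ℕ} (hp : p.Prime) (hm : ¬ p ∣ m) {d : J}
    (h1 : p • d = 0) (h2 : m • d = 0) : d = 0 := by
  have hcop : Nat.Coprime p m := (Nat.Prime.coprime_iff_not_dvd hp).mpr hm
  have h3 : addOrderOf d ∣ p := addOrderOf_dvd_of_nsmul_eq_zero h1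
  have h4 : addOrderOf d ∣ m := addOrderOf_dvd_of_nsmul_eq_zero h2
  have h5 : addOrderOf d ∣ 1 := by
    have := Nat.dvd_gcd h3 h4
    rwa [hcop.gcd_eq_one] at this
  exact AddMonoid.addOrderOf_eq_one_iff.mp (Nat.dvd_one.mp h5)

theorem nsmul_match {p : ℕ} (m₀ j : ℕ) (X : J) {x : J} (hx : p • x = 0) :
    p • (m₀ • (X - j • x)) = m₀ • (p • X) := by
  rw [smul_comm p m₀, smul_sub, smul_comm p j, hx, smul_zero, sub_zero]

variable {G : Type*} [Group G] [DistribMulAction G J]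

theorem gal_nsmul (σ : G) (n : ℕ) (P : J) : σ • (n • P) = n • (σ • P) :=
  smul_comm σ n P

/-- the abstract assembly: the fixed point `X`, the multiplier `m₀`, and the Kummer statement for
`m₀ • (X - j • x)` give `σ x = x` -/
theorem gal_fix_of_match {p m₀ j : ℕ} (hp : p.Prime) (hm₀ : ¬ p ∣ m₀) (hj : ¬ p ∣ j) (σ : G)
    {X x : J} (hX : σ • X = X) (hx : p • x = 0)
    (hQ : σ • (m₀ • (X - j • x)) = m₀ • (X - j • x)) : σ • x = x := by
  have h1 : (m₀ * j) • (σ • x - x) = 0 := by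
    rw [gal_nsmul, smul_sub, hX, gal_nsmul, smul_sub, smul_sub] at hQ
    have e2 : m₀ • (j • (σ • x)) = m₀ • (j • x) := sub_right_injective hQ
    rw [mul_smul, smul_sub, smul_sub, e2, sub_self]
  have h2 : p • (σ • x - x) = 0 := by
    rw [smul_sub, ← gal_nsmul, hx, smul_zero, sub_zero]
  have hmj : ¬ p ∣ m₀ * j := by
    intro h
    rcases (Nat.Prime.dvd_mul hp).mp h with h | h
    · exact hm₀ h
    · exact hj h
  exact sub_eq_zero.mp (eq_zero_of_nsmul_coprime hp hmj h2 h1)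

end Abstract

section Assembly

variable (W : WeierstrassCurve ℤ) {p : ℕ} (A : ValuationSubring (AlgebraicClosure ℚ))

theorem inE0v_nsmul_int {Y : ((W.map (Int.castRingHom ℚ))⁄(AlgebraicClosure ℚ)).Point}
    (hY : InE0v A Y) (m : ℕ) : InE0v A (m • Y) := by
  induction m with
  | zero => rw [zero_nsmul]; exact inE0v_zero
  | succ k ih => rw [succ_nsmul]; exact inE0v_add (intCoeff_map_int W A) ih hY

/-- **assembly of block T**: the leaves give the Kummer form of "peu ramifie" -/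
theorem peuKummer_of_leaves (hp : p.Prime) (hPT : LeafPT W p A) (hKILL : LeafKILL W p A)
    (hNOPT : LeafNOPT W p A) (hKUM : LeafKUM W p A) :
    PeuKummer (W.map (Int.castRingHom ℚ)) p A := by
  obtain ⟨X, hXfix, hpX, hmatch⟩ := hPT
  obtain ⟨w, hw1, hwσ, hkum, hline⟩ := hKUM
  obtain ⟨m₀, hm₀, hθ⟩ := hKILL (p • X) hpX
  -- the Kummer element
  refine ⟨w (m₀ • (p • X)), (hw1 _ hθ).1, (hw1 _ hθ).2, ?_, ?_⟩
  · intro σ hσ
    rw [← hwσ σ hσ _ hθ, gal_nsmul, gal_nsmul, hXfix σ hσ]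
  · intro α ζ hα hζ σ hσ hσζ hσα x hx
    by_cases hx1 : InG1 A.valuation x
    · exact hline x hx1 hx σ hσ ζ hζ hσζ
    · obtain ⟨j, hj, hY⟩ := hmatch x hx hx1
      have hQ0 : InE0v A (m₀ • (X - j • x)) := inE0v_nsmul_int W A hY m₀
      have hpQ : p • (m₀ • (X - j • x)) = m₀ • (p • X) := nsmul_match m₀ j X hx
      have hQ1 : InG1 A.valuation (m₀ • (X - j • x)) := hNOPT _ hQ0 (by rw [hpQ]; exact hθ)
      have hσθ : σ • (p • (m₀ • (X - j • x))) = p • (m₀ • (X - j • x)) := by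
        rw [hpQ, gal_nsmul, gal_nsmul, hXfix σ hσ]
      have hQ : σ • (m₀ • (X - j • x)) = m₀ • (X - j • x) :=
        hkum _ hQ1 σ hσ hσθ ζ α hζ hσζ (by rw [hpQ]; exact hα) hσα
      exact gal_fix_of_match hp hm₀ hj σ (hXfix σ hσ) hx hQ

end Assembly

end Fermat.Agent.R38T
end MergeWrap_R38_T_Asm

section MergeWrap_R38_T_Kum -- from R38/T/Kum.lean

/-!
# Row 38, block T (Frey curve at `p`): leaves KUM and LINE (helper77)

Abstract valued-field statements on a Weierstrass curve in nodal normal form (`MultRed.NodalNF`),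
with the approximate character `w = nodeChar W α β` on the kernel of reduction (`InG1`).

`σ : K →+* K` preserves `v`; `Q'` plays the role of `σ Q`: the only facts used are
`w Q' = σ (w Q)` and `p • Q' = p • Q` (i.e. `p • Q` is `σ`-fixed).

* `kum_fix` (KUM): `Q, Q' ∈ E1`, `p • Q' = p • Q`, `w Q' = σ (w Q)`, `σ ζ = ζ`, `σ a' = a'` with
  `a' ^ p = w (p • Q)`, `v a₆ ≤ v p ^ 2`  ⟹  `Q' = Q`.
* `line_fix` (LINE): `T, T' ∈ E1[p]`, `w T' = σ (w T)`, `σ ζ = ζ`  ⟹  `T' = T`.
-/

set_option autoImplicit false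
set_option linter.unusedSectionVars false

namespace Fermat.Agent.R38T

open WeierstrassCurve WeierstrassCurve.Affine Fermat.Agent.MultRed S05H5 S05H65 S05H75 Polynomial

variable {K : Type*} [Field K] [DecidableEq K] {Γ₀ : Type*} [LinearOrderedCommGroupWithZero Γ₀]
variable {v : Valuation K Γ₀} {W : Affine K} {α β : K}

omit [DecidableEq K] in
/-- a ring endomorphism fixing a primitive root fixes every root of unity of that order -/
lemma map_root_eq_of_primitive (σ : K →+* K) {p : ℕ} (hp : 0 < p) {ζ : K}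
    (hζ : IsPrimitiveRoot ζ p) (hσζ : σ ζ = ζ) {μ : K} (hμ : μ ∈ nthRootsFinset p (1 : K)) :
    σ μ = μ := by
  rw [mem_nthRootsFinset hp] at hμ
  have : NeZero p := ⟨hp.ne'⟩
  obtain ⟨i, -, rfl⟩ := hζ.eq_pow_of_pow_eq_one hμ
  rw [map_pow, hσζ]

omit [DecidableEq K] in
/-- `X ^ p - c ^ p = ∏ (X - μ c)` evaluated -/
lemma pow_sub_pow_eq_prod {p : ℕ} (hp : 0 < p) {ζ : K} (hζ : IsPrimitiveRoot ζ p) (w c : K)
    (hc : c ≠ 0) :
    w ^ p - c ^ p = ∏ μ ∈ nthRootsFinset p (1 : K), (w - μ * c) := by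
  have h1 := congrArg (Polynomial.eval (w / c)) (X_pow_sub_one_eq_prod hp hζ)
  simp only [eval_sub, eval_pow, eval_X, eval_one, Polynomial.eval_prod, eval_C] at h1
  have hcard : (nthRootsFinset p (1 : K)).card = p := hζ.card_nthRootsFinset
  have h2 : ∏ μ ∈ nthRootsFinset p (1 : K), (w - μ * c)
      = c ^ p * ∏ μ ∈ nthRootsFinset p (1 : K), (w / c - μ) := by
    have h3 : c ^ p = ∏ _μ ∈ nthRootsFinset p (1 : K), c := by
      rw [Finset.prod_const, hcard]
    rw [h3, ← Finset.prod_mul_distrib]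
    refine Finset.prod_congr rfl fun μ _ => ?_
    field_simp
  rw [h2, ← h1, div_pow]
  field_simp

/-- **LINE**: an automorphism fixing `ζ_p` fixes the `p`-torsion of the kernel of reduction. -/
theorem line_fix (nf : NodalNF v W α β) {p : ℕ} (hp : p.Prime) (hp0 : (p : K) ≠ 0)
    (ha₆ : v W.a₆ ≤ v (p : K)) (σ : K →+* K) (hσv : ∀ a : K, v (σ a) = v a)
    {ζ : K} (hζ : IsPrimitiveRoot ζ p) (hσζ : σ ζ = ζ)
    {T T' : W.Point} (hT : InG1 v T) (hT' : InG1 v T') (hpT : p • T = 0) (hpT' : p • T' = 0)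
    (hw : nodeChar W α β T' = σ (nodeChar W α β T)) : T' = T := by
  by_contra hne
  obtain ⟨μ, hμ, hnear⟩ := nf.exists_root_near hp hp0 ha₆ hζ hT hpT
  have hσμ : σ μ = μ := map_root_eq_of_primitive σ hp.pos hζ hσζ hμ
  have hd := nf.v_nodeChar_sub_pow hp hp0 ha₆ hT' hT hpT' hpT hne
  have e : nodeChar W α β T' - nodeChar W α β T
      = σ (nodeChar W α β T - μ) - (nodeChar W α β T - μ) := by
    rw [hw, map_sub, hσμ]; ring
  have h1 : v (nodeChar W α β T' - nodeChar W α β T) ≤ v (nodeChar W α β T - μ) := by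
    rw [e]
    refine le_trans (Valuation.map_sub _ _ _) ?_
    rw [hσv, max_self]
  have h2 : v (nodeChar W α β T' - nodeChar W α β T) ^ (p - 1) < v (p : K) :=
    lt_of_le_of_lt (pow_le_pow_left₀ zero_le h1 _) hnear
  rw [hd] at h2
  exact lt_irrefl _ h2

/-- **KUM**: a `p`-th root `Q ∈ E1` of a `σ`-fixed point `θ = p • Q` is fixed by `σ` as soon as `σ`
fixes `ζ_p` and a `p`-th root `a'` of the unit `w θ`. -/
theorem kum_fix (nf : NodalNF v W α β) {p : ℕ} (hp : p.Prime) (hp0 : (p : K) ≠ 0)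
    (ha₆ : v W.a₆ ≤ v (p : K) ^ 2) (hvp : v (p : K) < 1)
    (σ : K →+* K) (hσv : ∀ a : K, v (σ a) = v a)
    {ζ a' : K} (hζ : IsPrimitiveRoot ζ p) (hσζ : σ ζ = ζ) (hσa : σ a' = a')
    {Q Q' : W.Point} (hQ : InG1 v Q) (hQ' : InG1 v Q') (hpQ : p • Q' = p • Q)
    (ha' : a' ^ p = nodeChar W α β (p • Q))
    (hw : nodeChar W α β Q' = σ (nodeChar W α β Q)) : Q' = Q := by
  by_contra hne
  obtain ⟨hb₂, hb₄, hb₆, hb₈⟩ := nf.vb
  have hvp0 : v (p : K) ≠ 0 := (Valuation.ne_zero_iff v).mpr hp0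
  have hvppos : 0 < v (p : K) := zero_lt_iff.mpr hvp0
  have hp1 : p - 1 ≠ 0 := by have := hp.two_le; omega
  have ha₆1 : v W.a₆ ≤ v (p : K) := by
    refine le_trans ha₆ ?_
    rw [pow_two]
    calc v (p : K) * v (p : K) ≤ v (p : K) * 1 := mul_le_mul' le_rfl hvp.le
      _ = v (p : K) := mul_one _
  -- the difference `T = Q' - Q` is a nonzero point of `E1[p]`
  have hT : InG1 v (Q' - Q) := inG1_sub v hb₂ hb₄ hb₆ hb₈ hQ' hQ
  have hT0 : Q' - Q ≠ 0 := sub_ne_zero.mpr hne
  have hpT : p • (Q' - Q) = 0 := by rw [smul_sub, hpQ, sub_self]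
  have hρ := nf.v_nodeChar_sub_one_pow hp hp0 ha₆1 hT hT0 hpT
  set ρ := v (nodeChar W α β (Q' - Q) - 1) with hρdef
  have hρ1 : ρ < 1 := nf.v_nodeChar_sub_one_lt hT
  have hρ0 : ρ ≠ 0 := by
    intro h0
    rw [h0, zero_pow hp1] at hρ
    exact hvp0 hρ.symm
  have hρpos : 0 < ρ := zero_lt_iff.mpr hρ0
  have hvpρ : v (p : K) ≤ ρ := by
    rw [← hρ]; exact pow_le_of_le_one zero_le hρ1.le hp1
  set w := nodeChar W α β Q with hwdef
  -- (1) `v (σ w - w) = ρ`
  have hu : max (v (pt (Q' - Q))) (v (pt Q)) < 1 :=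
    max_lt ((inG1_iff v _).mp hT).2 ((inG1_iff v _).mp hQ).2
  have hD := nf.v_nodeChar_add_le hT hQ (le_max_left _ _) (le_max_right _ _)
  rw [sub_add_cancel] at hD
  have hD' : v (nodeChar W α β Q' - nodeChar W α β (Q' - Q) * w) < ρ := by
    refine lt_of_le_of_lt hD ?_
    calc v W.a₆ * max (v (pt (Q' - Q))) (v (pt Q))
        ≤ v (p : K) * max (v (pt (Q' - Q))) (v (pt Q)) := mul_le_mul' ha₆1 le_rfl
      _ < v (p : K) * 1 := mul_lt_mul_of_pos_left hu hvppos
      _ = v (p : K) := mul_one _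
      _ ≤ ρ := hvpρ
  have e1 : nodeChar W α β Q' - w
      = (nodeChar W α β Q' - nodeChar W α β (Q' - Q) * w)
        + w * (nodeChar W α β (Q' - Q) - 1) := by ring
  have hmain : v (w * (nodeChar W α β (Q' - Q) - 1)) = ρ := by
    rw [map_mul, nf.v_nodeChar hQ, one_mul]
  have h1 : v (σ w - w) = ρ := by
    rw [← hw, e1, Valuation.map_add_eq_of_lt_right v (by rw [hmain]; exact hD'), hmain]
  -- (2) `w ^ p = a' ^ p + e` with `e` tiny
  obtain ⟨-, -, hk⟩ := nf.v_nodeChar_nsmul_le hQ p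
  rw [← ha', ← hwdef, Valuation.map_sub_swap] at hk
  have hva : v (a' ^ p) = 1 := by rw [ha']; exact nf.v_nodeChar (nf.v_nodeChar_nsmul_le hQ p).1
  have ha0 : a' ≠ 0 := by
    intro h0
    rw [h0, zero_pow hp.ne_zero, map_zero] at hva
    exact zero_ne_one hva
  have hsmall : v (w ^ p - a' ^ p) < v (p : K) * ρ := by
    refine lt_of_le_of_lt hk ?_
    have hptQ : v (pt Q) < 1 := ((inG1_iff v _).mp hQ).2
    calc v W.a₆ * v (pt Q) ≤ v (p : K) ^ 2 * v (pt Q) := mul_le_mul' ha₆ le_rfl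
      _ < v (p : K) ^ 2 * 1 := mul_lt_mul_of_pos_left hptQ (pow_pos hvppos 2)
      _ = v (p : K) * v (p : K) := by rw [mul_one, pow_two]
      _ ≤ v (p : K) * ρ := mul_le_mul' le_rfl hvpρ
  -- (3) some factor `w - μ a'` is smaller than `ρ`
  have hex : ∃ μ ∈ nthRootsFinset p (1 : K), v (w - μ * a') < ρ := by
    by_contra hcon
    push Not at hcon
    have hprod := pow_sub_pow_eq_prod hp.pos hζ w a' ha0
    have h2 : ρ ^ p ≤ ∏ μ ∈ nthRootsFinset p (1 : K), v (w - μ * a') := by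
      have := Finset.pow_card_le_prod (nthRootsFinset p (1 : K)) (fun μ => v (w - μ * a')) ρ hcon
      rwa [hζ.card_nthRootsFinset] at this
    rw [← map_prod, ← hprod] at h2
    have hpow : ρ ^ p = v (p : K) * ρ := by
      rw [← hρ, ← pow_succ, Nat.sub_add_cancel hp.one_le]
    rw [hpow] at h2
    exact absurd (lt_of_le_of_lt h2 hsmall) (lt_irrefl _)
  obtain ⟨μ, hμ, hμlt⟩ := hex
  have hσμ : σ μ = μ := map_root_eq_of_primitive σ hp.pos hζ hσζ hμ
  have e2 : σ w - w = σ (w - μ * a') - (w - μ * a') := by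
    rw [map_sub, map_mul, hσμ, hσa]; ring
  have h3 : v (σ w - w) ≤ v (w - μ * a') := by
    rw [e2]
    refine le_trans (Valuation.map_sub _ _ _) ?_
    rw [hσv, max_self]
  rw [h1] at h3
  exact absurd (lt_of_le_of_lt h3 hμlt) (lt_irrefl _)

end Fermat.Agent.R38T
end MergeWrap_R38_T_Kum

section MergeWrap_R38_T_KumMap -- from R38/T/KumMap.lean

/-!
# Row 38, block T: KUM and LINE in the setting of `Lib/MultRed/Unipotent.lean` (helper77)

`W' : Affine R`, `K ⊇ R` a valued field, the translate `transl r t • (W'⁄K)` in nodal normal form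
with tangent directions `α, β`; `σ : K →ₐ[S] K` preserves `v` and fixes `r, t, α, β`.
Points of `W'⁄K` are written `vcHom (transl r t) rfl Q₀` with `Q₀` on the translate
(`MultRed.exists_vcHom_eq`).

* `exists_transl_img`: the point `σ Q` on the translate, with `w (σ Q) = σ (w Q)`.
* `kum_fix_map`, `line_fix_map`: `Point.map σ Q = Q`.
-/

set_option autoImplicit false
set_option linter.unusedSectionVars false

namespace Fermat.Agent.R38T

open WeierstrassCurve WeierstrassCurve.Affine Fermat.Agent.MultRed Fermat.Agent.VarChange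
  S05H5 S05H65 S05H75

variable {K : Type*} [Field K] [DecidableEq K] {Γ₀ : Type*} [LinearOrderedCommGroupWithZero Γ₀]
variable {R S : Type*} [CommRing R] [CommRing S] [Algebra R S] [Algebra R K] [Algebra S K]
  [IsScalarTower R S K]

/-- the image under `σ` of a point of the translate, together with its character -/
theorem exists_transl_img (v : Valuation K Γ₀) (W' : Affine R) {r t α β : K}
    (σ : K →ₐ[S] K) (hσv : ∀ a : K, v (σ a) = v a)
    (hσr : σ r = r) (hσt : σ t = t) (hσα : σ α = α) (hσβ : σ β = β)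
    (X₀ : ((transl r t) • (W'⁄K)).toAffine.Point) :
    ∃ X₀' : ((transl r t) • (W'⁄K)).toAffine.Point,
      vcHom (W₁ := (W'⁄K)) (transl r t) rfl X₀'
          = Point.map σ (vcHom (W₁ := (W'⁄K)) (transl r t) rfl X₀) ∧
        nodeChar ((transl r t) • (W'⁄K)).toAffine α β X₀'
          = σ (nodeChar ((transl r t) • (W'⁄K)).toAffine α β X₀) ∧
        (InG1 v X₀ → InG1 v X₀') := by
  rcases X₀ with _ | ⟨x, y, h⟩
  · refine ⟨0, ?_, ?_, fun _ => Or.inl rfl⟩
    · have : (Point.zero : ((transl r t) • (W'⁄K)).toAffine.Point) = 0 := rfl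
      rw [this, map_zero, map_zero]
    · have : (Point.zero : ((transl r t) • (W'⁄K)).toAffine.Point) = 0 := rfl
      rw [this, nodeChar_zero, map_one]
  · have h1 : (W'⁄K).Nonsingular (x + r) (y + t) := by
      have := vc_nonsingular_of_eq (W₁ := (W'⁄K)) (transl r t) rfl h
      rwa [vcX_transl, vcY_transl] at this
    have hσ1 : (W'⁄K).Nonsingular (σ (x + r)) (σ (y + t)) :=
      (W'.baseChange_nonsingular σ.injective (x + r) (y + t)).mpr h1
    have h'' : ((transl r t) • (W'⁄K)).toAffine.Nonsingular (σ x) (σ y) := by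
      rw [vc_nonsingular_iff, vcX_transl, vcY_transl]
      have e1 : σ x + r = σ (x + r) := by rw [map_add, hσr]
      have e2 : σ y + t = σ (y + t) := by rw [map_add, hσt]
      rw [e1, e2]
      exact hσ1
    refine ⟨Point.some (σ x) (σ y) h'', ?_, ?_, ?_⟩
    · rw [vcHom_apply, vcHom_apply, vcFun_some, vcFun_some]
      have hmap : Point.map σ (Point.some (vcX (transl r t) x) (vcY (transl r t) x y)
            (vc_nonsingular_of_eq (W₁ := (W'⁄K)) (transl r t) rfl h))
          = Point.some (σ (vcX (transl r t) x)) (σ (vcY (transl r t) x y))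
            ((W'.baseChange_nonsingular σ.injective _ _).mpr
              (vc_nonsingular_of_eq (W₁ := (W'⁄K)) (transl r t) rfl h)) :=
        Point.map_some σ _
      rw [hmap]
      simp only [vcX_transl, vcY_transl, map_add, hσr, hσt]
    · rw [nodeChar_some, nodeChar_some, map_div₀, map_sub, map_sub, map_mul, map_mul, hσα, hσβ]
    · intro hP
      have := one_lt_of_inG1_some hP
      refine Or.inr ?_
      rw [px_some, hσv]
      exact this

/-- **LINE**, Galois form: `σ` fixing `ζ_p` fixes the `p`-torsion of the kernel of reduction. -/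
theorem line_fix_map (v : Valuation K Γ₀) (W' : Affine R) {r t α β : K}
    (nf : NodalNF v ((transl r t) • (W'⁄K)).toAffine α β)
    {p : ℕ} (hp : p.Prime) (hp0 : (p : K) ≠ 0)
    (ha₆ : v ((transl r t) • (W'⁄K)).a₆ ≤ v (p : K))
    (σ : K →ₐ[S] K) (hσv : ∀ a : K, v (σ a) = v a)
    (hσr : σ r = r) (hσt : σ t = t) (hσα : σ α = α) (hσβ : σ β = β)
    {ζ : K} (hζ : IsPrimitiveRoot ζ p) (hσζ : σ ζ = ζ)
    {T₀ : ((transl r t) • (W'⁄K)).toAffine.Point} (hT : InG1 v T₀) (hpT : p • T₀ = 0) :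
    Point.map σ (vcHom (W₁ := (W'⁄K)) (transl r t) rfl T₀)
      = vcHom (W₁ := (W'⁄K)) (transl r t) rfl T₀ := by
  obtain ⟨T₀', hT', hw, hG⟩ := exists_transl_img v W' σ hσv hσr hσt hσα hσβ T₀
  have hpT' : p • T₀' = 0 := by
    apply vcHom_injective (W₁ := (W'⁄K)) (transl r t) rfl
    rw [map_nsmul, hT', ← map_nsmul, ← map_nsmul, hpT, map_zero, map_zero]
  have := line_fix nf hp hp0 ha₆ (σ : K →+* K) hσv hζ hσζ hT (hG hT) hpT hpT' hw
  rw [← hT', this]

/-- **KUM**, Galois form: if `p • Q` is `σ`-fixed, `Q ∈ E1`, and `σ` fixes `ζ_p` and a `p`-th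
root of the unit `w (p • Q)`, then `σ` fixes `Q`. -/
theorem kum_fix_map (v : Valuation K Γ₀) (W' : Affine R) {r t α β : K}
    (nf : NodalNF v ((transl r t) • (W'⁄K)).toAffine α β)
    {p : ℕ} (hp : p.Prime) (hp0 : (p : K) ≠ 0)
    (ha₆ : v ((transl r t) • (W'⁄K)).a₆ ≤ v (p : K) ^ 2) (hvp : v (p : K) < 1)
    (σ : K →ₐ[S] K) (hσv : ∀ a : K, v (σ a) = v a)
    (hσr : σ r = r) (hσt : σ t = t) (hσα : σ α = α) (hσβ : σ β = β)
    {ζ a' : K} (hζ : IsPrimitiveRoot ζ p) (hσζ : σ ζ = ζ) (hσa : σ a' = a')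
    {Q₀ : ((transl r t) • (W'⁄K)).toAffine.Point} (hQ : InG1 v Q₀)
    (hθ : Point.map σ (p • vcHom (W₁ := (W'⁄K)) (transl r t) rfl Q₀)
      = p • vcHom (W₁ := (W'⁄K)) (transl r t) rfl Q₀)
    (ha' : a' ^ p = nodeChar ((transl r t) • (W'⁄K)).toAffine α β (p • Q₀)) :
    Point.map σ (vcHom (W₁ := (W'⁄K)) (transl r t) rfl Q₀)
      = vcHom (W₁ := (W'⁄K)) (transl r t) rfl Q₀ := by
  obtain ⟨Q₀', hQ', hw, hG⟩ := exists_transl_img v W' σ hσv hσr hσt hσα hσβ Q₀
  have hpQ : p • Q₀' = p • Q₀ := by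
    apply vcHom_injective (W₁ := (W'⁄K)) (transl r t) rfl
    rw [map_nsmul, hQ', ← map_nsmul, hθ, map_nsmul]
  have := kum_fix nf hp hp0 ha₆ hvp (σ : K →+* K) hσv hζ hσζ hσa hQ (hG hQ) hpQ ha' hw
  rw [← hQ', this]

end Fermat.Agent.R38T
end MergeWrap_R38_T_KumMap

section MergeWrap_R38_T_KumQ -- from R38/T/KumQ.lean

/-!
# Row 38, block T: the leaf `LeafKUM` at the `Q̄` level (owner: helper39)

From helper77's `kum_fix_map`, `line_fix_map`, `exists_transl_img` (`KumMap.lean`) and the nodal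
normal form at a multiplicative prime (`exists_nodalNF`): for `W / ℤ` with multiplicative
reduction at the odd prime `p` and `p² ∣ Δ`, the approximate character `w` (the tangent ratio of
the nodal normal form, transported to the original model) satisfies `LeafKUM W p A`.
-/

set_option autoImplicit false
set_option linter.unusedSectionVars false

open WeierstrassCurve WeierstrassCurve.Affine

namespace Fermat.Agent.R38T

open S05H5 S05H65 S05H75 Fermat.Agent.MultRed Fermat.Agent.VarChange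

section

variable (W : WeierstrassCurve ℤ) {p : ℕ} [Fact p.Prime] (hΔ : (p : ℤ) ∣ W.Δ)
  (hc₄ : ¬ (p : ℤ) ∣ W.c₄)
  (A : ValuationSubring (AlgebraicClosure ℚ)) (hA : A.LiesOverPrime p)

include hΔ hc₄ hA

/-- **the leaf KUM + LINE at the `Q̄` level** -/
theorem leafKUM (hΔ2 : (p : ℤ) ^ 2 ∣ W.Δ) : LeafKUM W p A := by
  have hp : p.Prime := Fact.out
  obtain ⟨r, t, α, β, hr, ht, nf, hfix⟩ := exists_nodalNF W hΔ hc₄ A hA
  have : Algebra.IsAlgebraic ℚ (AlgebraicClosure ℚ) := AlgebraicClosure.isAlgebraic ℚ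
  have hp0 : ((p : ℕ) : AlgebraicClosure ℚ) ≠ 0 := Nat.cast_ne_zero.mpr hp.ne_zero
  have hvp : A.valuation ((p : ℕ) : AlgebraicClosure ℚ) < 1 := A.mem_nonunits_iff.mp hA
  -- the valuation of `a₆`
  have hΔE : ((W.map (Int.castRingHom ℚ))⁄(AlgebraicClosure ℚ)).Δ
      = ((W.Δ : ℤ) : AlgebraicClosure ℚ) := by
    rw [baseChange_map_int]
    show (W.map (algebraMap ℤ (AlgebraicClosure ℚ))).Δ = _
    rw [WeierstrassCurve.map_Δ, eq_intCast]
  have ha₆2 : A.valuation ((transl r t) • ((W.map (Int.castRingHom ℚ))⁄(AlgebraicClosure ℚ))).a₆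
      ≤ A.valuation ((p : ℕ) : AlgebraicClosure ℚ) ^ 2 := by
    have h1 := nf.v_Δ
    have h2 : ((transl r t) • ((W.map (Int.castRingHom ℚ))⁄(AlgebraicClosure ℚ))).toAffine.Δ
        = ((W.map (Int.castRingHom ℚ))⁄(AlgebraicClosure ℚ)).Δ := transl_Δ _ r t
    rw [h2, hΔE] at h1
    rw [← h1]
    obtain ⟨m, hm⟩ := hΔ2
    rw [hm]
    push_cast
    rw [map_mul, map_pow]
    calc A.valuation (p : AlgebraicClosure ℚ) ^ 2 * A.valuation (m : AlgebraicClosure ℚ)
        ≤ A.valuation (p : AlgebraicClosure ℚ) ^ 2 * 1 := mul_le_mul' le_rfl (vle_intCast _ m)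
      _ = A.valuation (p : AlgebraicClosure ℚ) ^ 2 := mul_one _
  have ha₆1 : A.valuation ((transl r t) • ((W.map (Int.castRingHom ℚ))⁄(AlgebraicClosure ℚ))).a₆
      ≤ A.valuation ((p : ℕ) : AlgebraicClosure ℚ) := by
    refine le_trans ha₆2 ?_
    rw [pow_two]
    calc A.valuation (p : AlgebraicClosure ℚ) * A.valuation (p : AlgebraicClosure ℚ)
        ≤ A.valuation (p : AlgebraicClosure ℚ) * 1 := mul_le_mul' le_rfl hvp.le
      _ = A.valuation (p : AlgebraicClosure ℚ) := mul_one _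
  -- the inverse of the translation
  have hex : ∀ P : ((W.map (Int.castRingHom ℚ))⁄(AlgebraicClosure ℚ)).Point,
      ∃ P₀ : ((transl r t) • ((W.map (Int.castRingHom ℚ))⁄(AlgebraicClosure ℚ))).toAffine.Point,
        vcHom (W₁ := ((W.map (Int.castRingHom ℚ))⁄(AlgebraicClosure ℚ))) (transl r t) rfl P₀ = P :=
    fun P => exists_vcHom_eq _ r t P
  choose f hf using hex
  have hinj := vcHom_injective (W₁ := ((W.map (Int.castRingHom ℚ))⁄(AlgebraicClosure ℚ)))
    (transl r t) rfl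
  have hfG : ∀ P : ((W.map (Int.castRingHom ℚ))⁄(AlgebraicClosure ℚ)).Point,
      InG1 A.valuation P → InG1 A.valuation (f P) := by
    intro P hP
    rw [← inG1_vcHom_transl_iff A.valuation _ t hr, hf]
    exact hP
  have hfn : ∀ (n : ℕ) (P : ((W.map (Int.castRingHom ℚ))⁄(AlgebraicClosure ℚ)).Point),
      f (n • P) = n • f P := by
    intro n P
    apply hinj
    rw [hf, map_nsmul, hf]
  -- the Galois data
  have hσdata : ∀ σ : AlgebraicClosure ℚ ≃ₐ[ℚ] AlgebraicClosure ℚ, σ ∈ A.inertiaSubgroupIn ℚ →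
      (∀ a : AlgebraicClosure ℚ, A.valuation (σ.toAlgHom a) = A.valuation a) ∧
        σ.toAlgHom r = r ∧ σ.toAlgHom t = t ∧ σ.toAlgHom α = α ∧ σ.toAlgHom β = β := by
    intro σ hσ
    obtain ⟨h1, h2, h3, h4⟩ := hfix σ hσ
    exact ⟨fun a => Fermat.Agent.S13Two.decomp_val_eq A σ (inertiaIn_mem_decomp A σ hσ) a,
      h1, h2, h3, h4⟩
  refine ⟨fun P => nodeChar ((transl r t) •
    ((W.map (Int.castRingHom ℚ))⁄(AlgebraicClosure ℚ))).toAffine α β (f P), ?_, ?_, ?_, ?_⟩
  · intro Q hQ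
    exact ⟨nf.v_nodeChar (hfG Q hQ), nf.v_nodeChar_sub_one_lt (hfG Q hQ)⟩
  · intro σ hσ Q hQ
    obtain ⟨hσv, hσr, hσt, hσα, hσβ⟩ := hσdata σ hσ
    obtain ⟨X₀', h1, h2, -⟩ := exists_transl_img (S := ℚ) A.valuation
      (W.map (Int.castRingHom ℚ)).toAffine σ.toAlgHom hσv hσr hσt hσα hσβ (f Q)
    rw [hf] at h1
    have e : f (σ • Q) = X₀' := by
      apply hinj
      rw [hf, h1]
      rfl
    show nodeChar _ α β (f (σ • Q)) = σ (nodeChar _ α β (f Q))
    rw [e, h2]
    rfl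
  · intro Q hQ σ hσ hθ ζ a' hζ hσζ ha' hσa
    obtain ⟨hσv, hσr, hσt, hσα, hσβ⟩ := hσdata σ hσ
    have key := kum_fix_map (S := ℚ) A.valuation (W.map (Int.castRingHom ℚ)).toAffine nf hp hp0
      ha₆2 hvp σ.toAlgHom hσv hσr hσt hσα hσβ hζ hσζ hσa (hfG Q hQ)
      (by rw [hf]; exact hθ) (by rw [← hfn]; exact ha')
    rw [hf] at key
    exact key
  · intro T hT hpT σ hσ ζ hζ hσζ
    obtain ⟨hσv, hσr, hσt, hσα, hσβ⟩ := hσdata σ hσ
    have hpT₀ : p • f T = 0 := by
      rw [← hfn, hpT]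
      apply hinj
      rw [hf, map_zero]
    have key := line_fix_map (S := ℚ) A.valuation (W.map (Int.castRingHom ℚ)).toAffine nf hp hp0
      ha₆1 σ.toAlgHom hσv hσr hσt hσα hσβ hζ hσζ (hfG T hT) hpT₀
    rw [hf] at key
    exact key

end

end Fermat.Agent.R38T
end MergeWrap_R38_T_KumQ

section MergeWrap_R38_T_Kill -- from R38/T/Kill.lean

/-!
# Row 38, block T (Frey curve at `p`): leaves KILL and NOPT (helper26)

Abstract valued-field statements on a Weierstrass curve in nodal normal form (`MultRed.NodalNF`)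
over a field `K` with a valuation subring `A` of residue characteristic `p`.
`E0` = points not reducing to the node (`¬ IsNodePt`), `E1` = kernel of reduction (`InG1`).

* `nopt` (NOPT): `Y ∈ E0`, `p • Y ∈ E1`  ⟹  `Y ∈ E1` (also `nopt_pow` for `p ^ k`).
* `kill_of_resTorsion` (KILL, abstract): if every non-zero element of the residue field has finite
  order prime to `p`, then for `Y ∈ E0` there is `m` prime to `p` with `m • Y ∈ E1`.
* `resTorsion_of_isAlgebraic`: the hypothesis holds when `K` has characteristic `0` and is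
  algebraic over `ℚ` (e.g. `K = ℚ̄`) and `v p < 1`.
* `kill` (KILL): the combination.

Proof: the reduction `red0 : E0 → Ẽ_ns(k)` is additive with kernel `E1` (`MultRed.Red0`), and
`nodeChar : Ẽ_ns(k) → kˣ` is an injective homomorphism (`MultRed.Char`).
-/

set_option autoImplicit false
set_option linter.unusedSectionVars false
set_option linter.style.haveILetI false

namespace Fermat.Agent.R38T

open WeierstrassCurve WeierstrassCurve.Affine IsLocalRing Fermat.Agent.MultRed S05H5 S05H65 S05H75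
  Fermat.Agent.EllRed Polynomial

/-! ## Torsion in fields algebraic over `𝔽_p` -/

/-- a non-zero element of a field of characteristic `p` which is a root of unity has order prime
to `p` -/
lemma kill_pow_eq_one_not_dvd {k : Type*} [Field k] {p : ℕ} (hp : p.Prime) [CharP k p]
    {x : k} {n : ℕ} (hn : 0 < n) (hx : x ^ n = 1) : ∃ m : ℕ, ¬ p ∣ m ∧ x ^ m = 1 := by
  haveI : Fact p.Prime := ⟨hp⟩
  induction n using Nat.strong_induction_on generalizing x with
  | _ n ih =>
    by_cases hpn : p ∣ n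
    · obtain ⟨n', rfl⟩ := hpn
      have hn' : 0 < n' := Nat.pos_of_ne_zero (by rintro rfl; simp at hn)
      have h1 : (x ^ n' - 1) ^ p = 0 := by
        rw [sub_pow_char, one_pow, ← pow_mul, mul_comm, hx, sub_self]
      have h2 : x ^ n' = 1 := sub_eq_zero.mp (pow_eq_zero_iff hp.ne_zero |>.mp h1)
      exact ih n' (by nlinarith [hp.two_le]) hn' h2
    · exact ⟨n, hpn, hx⟩

/-- a non-zero element of a field of characteristic `p`, annihilated by a polynomial with integer
coefficients which is non-zero modulo `p`, has finite order prime to `p` -/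
lemma kill_pow_eq_one_of_root {k : Type*} [Field k] {p : ℕ} (hp : p.Prime) [CharP k p]
    {x : k} (hx0 : x ≠ 0) (g : ℤ[X]) (hg : g.map (Int.castRingHom (ZMod p)) ≠ 0)
    (hgx : aeval x g = 0) : ∃ m : ℕ, ¬ p ∣ m ∧ x ^ m = 1 := by
  haveI : Fact p.Prime := ⟨hp⟩
  letI : Algebra (ZMod p) k := ZMod.algebra k p
  have hint : IsIntegral (ZMod p) x := by
    refine IsAlgebraic.isIntegral ⟨g.map (Int.castRingHom (ZMod p)), hg, ?_⟩
    rw [aeval_def, eval₂_map]
    have : (algebraMap (ZMod p) k).comp (Int.castRingHom (ZMod p)) = algebraMap ℤ k :=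
      RingHom.ext_int _ _
    rw [this, ← aeval_def]
    exact hgx
  -- the subalgebra generated by `x` is finite
  haveI : Module.Finite (ZMod p) (Algebra.adjoin (ZMod p) {x}) :=
    Algebra.finite_adjoin_simple_of_isIntegral hint
  haveI : Finite (Algebra.adjoin (ZMod p) {x}) := Module.finite_of_finite (ZMod p)
  -- hence two powers of `x` coincide
  let f : ℕ → Algebra.adjoin (ZMod p) {x} :=
    fun i => ⟨x ^ i, pow_mem (Algebra.self_mem_adjoin_singleton _ x) i⟩
  obtain ⟨i, j, hij, hf⟩ := Finite.exists_ne_map_eq_of_infinite f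
  have hpow : x ^ i = x ^ j := congrArg Subtype.val hf
  have key : ∀ a b : ℕ, a < b → x ^ a = x ^ b → ∃ m : ℕ, ¬ p ∣ m ∧ x ^ m = 1 := by
    intro a b hab h
    have h1 : x ^ (b - a) = 1 := by
      have h2 : x ^ a * x ^ (b - a) = x ^ a * 1 := by
        rw [← pow_add, mul_one, Nat.add_sub_cancel' hab.le, h]
      exact mul_left_cancel₀ (pow_ne_zero _ hx0) h2
    exact kill_pow_eq_one_not_dvd hp (Nat.sub_pos_of_lt hab) h1
  rcases Nat.lt_or_gt_of_ne hij with h | h
  · exact key i j h hpow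
  · exact key j i h hpow.symm

/-- **residue torsion**: if `K` has characteristic `0` and is algebraic over `ℚ`, and `v p < 1`,
every non-zero element of the residue field has finite order prime to `p`. -/
theorem resTorsion_of_isAlgebraic {K : Type*} [Field K] [CharZero K] [Algebra.IsAlgebraic ℚ K]
    (A : ValuationSubring K) {p : ℕ} (hp : p.Prime) (hvp : A.valuation (p : K) < 1)
    (u : ResidueField A) (hu : u ≠ 0) : ∃ m : ℕ, ¬ p ∣ m ∧ u ^ m = 1 := by
  classical
  haveI : CharP (ResidueField A) p := charP_resField_of_val hp hvp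
  obtain ⟨a, rfl⟩ := residue_surjective u
  -- a polynomial over `ℤ` killing `a`
  have halg : IsAlgebraic ℤ (a : K) :=
    (IsFractionRing.isAlgebraic_iff ℤ ℚ K).mpr (Algebra.IsAlgebraic.isAlgebraic _)
  obtain ⟨f, hf0, hfa⟩ := halg
  -- its primitive part
  have hc0 : f.content ≠ 0 := by rwa [Ne, content_eq_zero_iff]
  have hfa' : aeval (a : K) f.primPart = 0 := by
    have h1 : aeval (a : K) f = (f.content : K) * aeval (a : K) f.primPart := by
      conv_lhs => rw [f.eq_C_content_mul_primPart]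
      rw [map_mul, aeval_C]
      simp
    rw [h1] at hfa
    exact (mul_eq_zero.mp hfa).resolve_left (Int.cast_ne_zero.mpr hc0)
  have hprim : f.primPart.IsPrimitive := f.isPrimitive_primPart
  have hg : f.primPart.map (Int.castRingHom (ZMod p)) ≠ 0 := by
    intro h0
    have hdvd : C (p : ℤ) ∣ f.primPart := by
      rw [C_dvd_iff_dvd_coeff]
      intro i
      have := congrArg (fun q => q.coeff i) h0
      simp only [coeff_map, coeff_zero, eq_intCast] at this
      exact (ZMod.intCast_zmod_eq_zero_iff_dvd _ p).mp this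
    have hunit := hprim _ hdvd
    rw [Int.isUnit_iff] at hunit
    have := hp.one_lt
    omega
  -- reduce
  have hA : aeval a f.primPart = 0 := by
    apply Subtype.val_injective
    have : ((aeval a f.primPart : A) : K) = aeval (a : K) f.primPart := by
      have := aeval_algHom_apply (A.subtype.toIntAlgHom) a f.primPart
      exact this.symm
    rw [this, hfa']
    rfl
  have hres : aeval (residue A a) f.primPart = 0 := by
    have := aeval_algHom_apply ((residue A).toIntAlgHom) a f.primPart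
    rw [hA, map_zero] at this
    exact this
  exact kill_pow_eq_one_of_root hp hu f.primPart hg hres

/-! ## The leaves -/

variable {K : Type*} [Field K] [DecidableEq K] {A : ValuationSubring K} {E : Affine K} {α β : K}

/-- **NOPT** (general form): `Y ∈ E0`, `p ^ k • Y ∈ E1`  ⟹  `Y ∈ E1`. -/
theorem nopt_pow (nf : NodalNF A.valuation E α β) {p : ℕ} (hp : p.Prime)
    (hvp : A.valuation (p : K) < 1) (k : ℕ) {Y : E.Point} (hY : ¬ IsNodePt A.valuation Y)
    (hpY : InG1 A.valuation ((p ^ k) • Y)) : InG1 A.valuation Y := by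
  classical
  haveI : Fact p.Prime := ⟨hp⟩
  haveI : CharP (ResidueField A) p := charP_resField_of_val hp hvp
  have h := isReduction_redCurve nf.intCoeff
  have hE0 := nf.inE0_of_not_isNodePt hY
  rw [← red0_eq_zero_iff hE0]
  apply nf.nodeCubic.eq_zero_of_pow_smul p k
  rw [← red0_nsmul h hE0]
  exact red0_of_inG1 hpY

/-- **NOPT**: `Y ∈ E0`, `p • Y ∈ E1`  ⟹  `Y ∈ E1`. -/
theorem nopt (nf : NodalNF A.valuation E α β) {p : ℕ} (hp : p.Prime)
    (hvp : A.valuation (p : K) < 1) {Y : E.Point} (hY : ¬ IsNodePt A.valuation Y)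
    (hpY : InG1 A.valuation (p • Y)) : InG1 A.valuation Y := by
  refine nopt_pow nf hp hvp 1 hY ?_
  rwa [pow_one]

/-- **KILL** (abstract form): if every non-zero element of the residue field has finite order
prime to `p`, then for `Y ∈ E0` there is `m` prime to `p` with `m • Y ∈ E1`. -/
theorem kill_of_resTorsion (nf : NodalNF A.valuation E α β) {p : ℕ}
    (hk : ∀ u : ResidueField A, u ≠ 0 → ∃ m : ℕ, ¬ p ∣ m ∧ u ^ m = 1)
    {Y : E.Point} (hY : ¬ IsNodePt A.valuation Y) :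
    ∃ m : ℕ, ¬ p ∣ m ∧ InG1 A.valuation (m • Y) := by
  classical
  have h := isReduction_redCurve nf.intCoeff
  have hE0 := nf.inE0_of_not_isNodePt hY
  have nc := nf.nodeCubic
  obtain ⟨m, hpm, hm⟩ := hk _ (nc.nodeChar_ne_zero (red0 A (redCurve A E) Y))
  refine ⟨m, hpm, ?_⟩
  rw [← red0_eq_zero_iff (inE0_nsmul h hE0 m), red0_nsmul h hE0, ← nc.nodeChar_eq_one_iff,
    nc.nodeChar_nsmul, hm]

/-- **KILL**: `K` of characteristic `0`, algebraic over `ℚ`, `v p < 1`: for `Y ∈ E0` there is `m`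
prime to `p` with `m • Y ∈ E1`. -/
theorem kill [CharZero K] [Algebra.IsAlgebraic ℚ K] (nf : NodalNF A.valuation E α β) {p : ℕ}
    (hp : p.Prime) (hvp : A.valuation (p : K) < 1) {Y : E.Point}
    (hY : ¬ IsNodePt A.valuation Y) : ∃ m : ℕ, ¬ p ∣ m ∧ InG1 A.valuation (m • Y) :=
  kill_of_resTorsion nf (resTorsion_of_isAlgebraic A hp hvp) hY

end Fermat.Agent.R38T
end MergeWrap_R38_T_Kill

section MergeWrap_R38_T_KillQ -- from R38/T/KillQ.lean

/-!
# Row 38, block T: the leaves `LeafKILL`, `LeafNOPT` at the `Q̄` level (owner: helper39)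

Bridges from helper26's `kill`, `nopt` (`Kill.lean`, abstract nodal normal form) to the points of
the original integral model over `Q̄`.
-/

set_option autoImplicit false
set_option linter.unusedSectionVars false

open WeierstrassCurve WeierstrassCurve.Affine

namespace Fermat.Agent.R38T

open S05H5 S05H65 S05H75 Fermat.Agent.MultRed Fermat.Agent.VarChange

section

variable (W : WeierstrassCurve ℤ) {p : ℕ} [Fact p.Prime] (hΔ : (p : ℤ) ∣ W.Δ)
  (hc₄ : ¬ (p : ℤ) ∣ W.c₄)
  (A : ValuationSubring (AlgebraicClosure ℚ)) (hA : A.LiesOverPrime p)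

include hΔ hc₄ hA

/-- a point of `E0` of the original model is the translate of a point not reducing to the node -/
theorem exists_translate_of_inE0v {r t α β : AlgebraicClosure ℚ} (hr : A.valuation r ≤ 1)
    (nf : NodalNF A.valuation
      ((transl r t) • ((W.map (Int.castRingHom ℚ))⁄(AlgebraicClosure ℚ))).toAffine α β)
    (Y : ((W.map (Int.castRingHom ℚ))⁄(AlgebraicClosure ℚ)).Point) (hY : InE0v A Y) :
    ∃ Y₀ : ((transl r t) • ((W.map (Int.castRingHom ℚ))⁄(AlgebraicClosure ℚ))).toAffine.Point,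
      vcHom (W₁ := ((W.map (Int.castRingHom ℚ))⁄(AlgebraicClosure ℚ))) (transl r t) rfl Y₀ = Y ∧
        ¬ IsNodePt A.valuation Y₀ := by
  obtain ⟨Y₀, hY₀⟩ := exists_vcHom_eq ((W.map (Int.castRingHom ℚ))⁄(AlgebraicClosure ℚ)).toAffine
    r t Y
  refine ⟨Y₀, hY₀, ?_⟩
  intro hn
  have hs := isSingPt_vcHom_of_isNodePt A.valuation
    ((W.map (Int.castRingHom ℚ))⁄(AlgebraicClosure ℚ)).toAffine hr nf Y₀ hn
  rw [hY₀] at hs
  exact ((not_isSingPt_iff_inE0v Y).mpr hY) hs

/-- **the leaf KILL at the `Q̄` level** -/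
theorem leafKILL : LeafKILL W p A := by
  have hp : p.Prime := Fact.out
  obtain ⟨r, t, α, β, hr, ht, nf, hfix⟩ := exists_nodalNF W hΔ hc₄ A hA
  have : Algebra.IsAlgebraic ℚ (AlgebraicClosure ℚ) := AlgebraicClosure.isAlgebraic ℚ
  have hvp : A.valuation ((p : ℕ) : AlgebraicClosure ℚ) < 1 := A.mem_nonunits_iff.mp hA
  intro Y hY
  obtain ⟨Y₀, hY₀, hn⟩ := exists_translate_of_inE0v W hΔ hc₄ A hA hr nf Y hY
  obtain ⟨m, hm, hG⟩ := kill nf hp hvp hn
  refine ⟨m, hm, ?_⟩
  rw [← hY₀, ← map_nsmul, inG1_vcHom_transl_iff A.valuation _ t hr]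
  exact hG

/-- **the leaf NOPT at the `Q̄` level** -/
theorem leafNOPT : LeafNOPT W p A := by
  have hp : p.Prime := Fact.out
  obtain ⟨r, t, α, β, hr, ht, nf, hfix⟩ := exists_nodalNF W hΔ hc₄ A hA
  have hvp : A.valuation ((p : ℕ) : AlgebraicClosure ℚ) < 1 := A.mem_nonunits_iff.mp hA
  intro Y hY hpY
  obtain ⟨Y₀, hY₀, hn⟩ := exists_translate_of_inE0v W hΔ hc₄ A hA hr nf Y hY
  rw [← hY₀, ← map_nsmul, inG1_vcHom_transl_iff A.valuation _ t hr] at hpY
  rw [← hY₀, inG1_vcHom_transl_iff A.valuation _ t hr]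
  exact nopt nf hp hvp hn hpY

end

end Fermat.Agent.R38T
end MergeWrap_R38_T_KillQ

section MergeWrap_R38_T_FinalOf -- from R38/T/FinalOf.lean

/-!
# Row 38, block T: the Kummer form of "peu ramifie" from the leaf `LeafPT` (owner: helper39)

* `peuKummer_of_leafPT`: for `W / ℤ` with multiplicative reduction at the odd prime `p` and
  `p² ∣ Δ`, the leaf `LeafPT W p A` gives `PeuKummer (W.map (Int.castRingHom ℚ)) p A`
  (the leaves KUM, LINE, KILL, NOPT are proved: `KumQ.lean`, `KillQ.lean`).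
* `peuFrey_of_leafPT`: the same for the Frey curve of a Frey package with `p ∣ a b c`.
-/

set_option autoImplicit false
set_option linter.unusedSectionVars false

open WeierstrassCurve WeierstrassCurve.Affine

namespace Fermat.Agent.R38T

open S05H75 Fermat.Agent.MultRed

theorem peuKummer_of_leafPT (W : WeierstrassCurve ℤ) {p : ℕ} (hp : p.Prime)
    (hΔ : (p : ℤ) ∣ W.Δ) (hc₄ : ¬ (p : ℤ) ∣ W.c₄) (hΔ2 : (p : ℤ) ^ 2 ∣ W.Δ)
    (A : ValuationSubring (AlgebraicClosure ℚ)) (hA : A.LiesOverPrime p)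
    (hPT : LeafPT W p A) : PeuKummer (W.map (Int.castRingHom ℚ)) p A := by
  have : Fact p.Prime := ⟨hp⟩
  exact peuKummer_of_leaves W A hp hPT (leafKILL W hΔ hc₄ A hA) (leafNOPT W hΔ hc₄ A hA)
    (leafKUM W hΔ hc₄ A hA hΔ2)

/-- `p² ∣ Δ` for the Frey curve at `p ∣ a b c` -/
theorem freyData_sq_dvd_Δ (P : FreyPackage) (hp : (P.p : ℤ) ∣ P.a * P.b * P.c) :
    (P.p : ℤ) ^ 2 ∣ P.freyCurveInt.Δ := by
  obtain ⟨m, u, hm, -, hΔ⟩ := freyData_Δ_eq P hp
  rw [hΔ]
  have h2 : 2 ≤ P.p * m := by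
    have := P.pp.two_le
    nlinarith
  exact Dvd.dvd.mul_right (pow_dvd_pow _ h2) _

theorem peuFrey_of_leafPT (P : FreyPackage) (hp : (P.p : ℤ) ∣ P.a * P.b * P.c)
    (A : ValuationSubring (AlgebraicClosure ℚ)) (hA : A.LiesOverPrime P.p)
    (hPT : LeafPT P.freyCurveInt P.p A) : PeuKummer P.freyCurve P.p A := by
  have h := peuKummer_of_leafPT P.freyCurveInt P.pp (freyData_dvd_Δ P hp)
    (freyData_not_dvd_c₄ P hp) (freyData_sq_dvd_Δ P hp) A hA hPT
  rwa [Fermat.Agent.FreyLib.freyCurveInt_map] at h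

end Fermat.Agent.R38T
end MergeWrap_R38_T_FinalOf

section MergeWrap_R38_T_Pt -- from R38/T/Pt.lean

set_option autoImplicit false
set_option linter.unusedSectionVars false

open WeierstrassCurve WeierstrassCurve.Affine

namespace Fermat.Agent.R38T

open Fermat.Agent.MultRed Fermat.Agent.MultRed.Comp S05H65 S05H27 Fermat.Agent.VarChange

section Abstract

variable {K : Type*} [Field K] {Γ₀ : Type*} [LinearOrderedCommGroupWithZero Γ₀]
  {v : Valuation K Γ₀} {W : Affine K} {α β : K}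

/-- in nodal normal form, the equation is `(2 y + a₁ x)² = x² (α - β)² + 4 x³ + 4 a₆`. -/
theorem pt_equation_of_sq (nf : NodalNF v W α β) (h2 : (2 : K) ≠ 0) {x y : K}
    (h : (2 * y + W.a₁ * x) ^ 2 = x ^ 2 * (α - β) ^ 2 + 4 * x ^ 3 + 4 * W.a₆) :
    W.Equation x y := by
  rw [Affine.equation_iff, nf.a₃, nf.a₄]
  have ha₁ : W.a₁ = -(α + β) := by rw [nf.hsum]; ring
  have ha₂ : W.a₂ = -(α * β) := by rw [nf.hprod]; ring
  have h4 : (4 : K) ≠ 0 := by
    have : (4 : K) = 2 * 2 := by norm_num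
    rw [this]
    exact mul_ne_zero h2 h2
  have key : 4 * (y ^ 2 + W.a₁ * x * y + 0 * y) = 4 * (x ^ 3 + W.a₂ * x ^ 2 + 0 * x + W.a₆) := by
    rw [ha₁] at h ⊢
    rw [ha₂]
    linear_combination h
  exact mul_left_cancel₀ h4 key

/-- a ring endomorphism which is trivial modulo the maximal ideal fixes the square roots of the
units it fixes (`v 2 = 1`). -/
theorem pt_sqrt_fixed (h2 : v 2 = 1) {s : K} (hs : v s = 1) (σ : K →+* K)
    (hσ : ∀ a, v a ≤ 1 → v (σ a - a) < 1) (hfix : σ (s ^ 2) = s ^ 2) : σ s = s := by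
  rw [map_pow] at hfix
  rcases sq_eq_sq_iff_eq_or_eq_neg.mp hfix with h1 | h1
  · exact h1
  · exfalso
    have h3 := hσ s hs.le
    rw [h1] at h3
    have h4 : -s - s = -(2 * s) := by ring
    rw [h4, Valuation.map_neg, map_mul, h2, hs, mul_one] at h3
    exact lt_irrefl _ h3

/-- **PT, abstract form.** -/
theorem pt_exists [IsAlgClosed K] (nf : NodalNF v W α β) (h2 : v 2 = 1) {x : K} (hx0 : x ≠ 0)
    (hx1 : v x < 1) (hxa : v W.a₆ < v x ^ 2) :
    ∃ (y : K) (_ : W.Nonsingular x y), v y < 1 ∧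
      ∀ σ : K →+* K, (∀ a, v a ≤ 1 → v (σ a - a) < 1) → σ x = x → σ α = α → σ β = β →
        σ W.a₆ = W.a₆ → σ y = y := by
  have h20 : (2 : K) ≠ 0 := by
    intro h0
    rw [h0, map_zero] at h2
    exact zero_ne_one h2
  have hαβ0 : α - β ≠ 0 := by
    intro h0
    have := nf.vαβ
    rw [h0, map_zero] at this
    exact zero_ne_one this
  have hvx0 : v x ≠ 0 := (Valuation.ne_zero_iff v).mpr hx0
  have hd0 : x ^ 2 * (α - β) ^ 2 ≠ 0 := mul_ne_zero (pow_ne_zero 2 hx0) (pow_ne_zero 2 hαβ0)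
  have hvd : v (x ^ 2 * (α - β) ^ 2) = v x ^ 2 := by
    rw [map_mul, map_pow, map_pow, nf.vαβ, one_pow, mul_one]
  -- the small term
  set ε : K := (4 * x ^ 3 + 4 * W.a₆) / (x ^ 2 * (α - β) ^ 2) with hε
  have hv4 : v (4 : K) ≤ 1 := by
    have : (4 : K) = 2 * 2 := by norm_num
    rw [this, map_mul, h2, mul_one]
  have hnum : v (4 * x ^ 3 + 4 * W.a₆) < v x ^ 2 := by
    refine lt_of_le_of_lt (Valuation.map_add _ _ _) (max_lt ?_ ?_)
    · rw [map_mul, map_pow]
      calc v 4 * v x ^ 3 ≤ 1 * v x ^ 3 := mul_le_mul' hv4 le_rfl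
        _ = v x ^ 3 := one_mul _
        _ < v x ^ 2 := pow_lt_pow_right_of_lt_one₀ (zero_lt_iff.mpr hvx0) hx1 (by norm_num)
    · rw [map_mul]
      calc v 4 * v W.a₆ ≤ 1 * v W.a₆ := mul_le_mul' hv4 le_rfl
        _ = v W.a₆ := one_mul _
        _ < v x ^ 2 := hxa
  have hvε : v ε < 1 := by
    rw [hε, map_div₀, hvd]
    exact (div_lt_one₀ (zero_lt_iff.mpr (pow_ne_zero 2 hvx0))).mpr hnum
  obtain ⟨s, hs⟩ := IsAlgClosed.exists_pow_nat_eq (1 + ε) (n := 2) (by norm_num)
  have hvs2 : v (s ^ 2) = 1 := by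
    rw [hs]
    have : v (1 + ε) = v 1 := Valuation.map_add_eq_of_lt_left v (by rw [map_one]; exact hvε)
    rw [this, map_one]
  have hvs : v s = 1 := by
    rw [map_pow] at hvs2
    exact (pow_eq_one_iff_of_nonneg zero_le (by norm_num)).mp hvs2
  have hs0 : s ≠ 0 := by
    intro h0
    rw [h0, map_zero] at hvs
    exact zero_ne_one hvs
  -- the point
  set y : K := (x * (α - β) * s - W.a₁ * x) / 2 with hy
  have hlin : 2 * y + W.a₁ * x = x * (α - β) * s := by
    rw [hy]
    field_simp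
    ring
  have hsq : (2 * y + W.a₁ * x) ^ 2 = x ^ 2 * (α - β) ^ 2 + 4 * x ^ 3 + 4 * W.a₆ := by
    rw [hlin, mul_pow, mul_pow, hs, hε]
    field_simp
    ring
  have heq : W.Equation x y := pt_equation_of_sq nf h20 hsq
  have hns : W.Nonsingular x y := by
    rw [Affine.nonsingular_iff]
    refine ⟨heq, Or.inr ?_⟩
    intro h0
    have h1 : 2 * y + W.a₁ * x + W.a₃ = 0 := by linear_combination h0
    rw [nf.a₃, add_zero, hlin] at h1
    exact mul_ne_zero (mul_ne_zero hx0 hαβ0) hs0 h1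
  have hvy : v y < 1 := by
    rw [hy, map_div₀, h2, div_one]
    refine lt_of_le_of_lt (Valuation.map_sub _ _ _) (max_lt ?_ ?_)
    · rw [map_mul, map_mul, nf.vαβ, hvs, mul_one, mul_one]
      exact hx1
    · rw [map_mul]
      calc v W.a₁ * v x ≤ 1 * v x := mul_le_mul' nf.va₁ le_rfl
        _ = v x := one_mul _
        _ < 1 := hx1
  refine ⟨y, hns, hvy, ?_⟩
  intro σ hσ hσx hσα hσβ hσa
  have ha₁ : W.a₁ = -(α + β) := by rw [nf.hsum]; ring
  have hσε : σ ε = ε := by
    simp only [hε, map_div₀, map_add, map_mul, map_pow, map_sub, map_ofNat, hσx, hσα, hσβ, hσa]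
  have hσs : σ s = s := by
    refine pt_sqrt_fixed h2 hvs σ hσ ?_
    rw [hs, map_add, map_one, hσε]
  simp only [hy, ha₁, map_div₀, map_sub, map_mul, map_neg, map_add, map_ofNat, hσx, hσα, hσβ, hσs]

/-- **PT, the component of order `p`.** -/
theorem pt_exists_pow [IsAlgClosed K] (nf : NodalNF v W α β) (h2 : v 2 = 1) {p : ℕ} (hp : 3 ≤ p)
    (ha₆ : W.a₆ ≠ 0) {x : K} (hx : v x ^ p = v W.a₆) :
    ∃ (y : K) (hxy : W.Nonsingular x y), IsNodePt v (Point.some x y hxy) ∧
      ∀ σ : K →+* K, (∀ a, v a ≤ 1 → v (σ a - a) < 1) → σ x = x → σ α = α → σ β = β →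
        σ W.a₆ = W.a₆ → σ y = y := by
  have hp0 : p ≠ 0 := by omega
  have hx0 : x ≠ 0 := by
    rintro rfl
    rw [map_zero, zero_pow hp0] at hx
    exact ha₆ ((map_eq_zero v).mp hx.symm)
  have hvx0 : v x ≠ 0 := (Valuation.ne_zero_iff v).mpr hx0
  have hx1 : v x < 1 := by
    by_contra hge
    rw [not_lt] at hge
    have h1 : 1 ≤ v x ^ p := one_le_pow₀ hge
    rw [hx] at h1
    exact absurd nf.va₆ (not_lt.mpr h1)
  have hxa : v W.a₆ < v x ^ 2 := by
    rw [← hx]
    exact pow_lt_pow_right_of_lt_one₀ (zero_lt_iff.mpr hvx0) hx1 (by omega)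
  obtain ⟨y, hxy, hvy, hfix⟩ := pt_exists nf h2 hx0 hx1 hxa
  exact ⟨y, hxy, ⟨hx1, hvy⟩, hfix⟩

end Abstract

section Rho

variable {K : Type*} [Field K] [DecidableEq K] {Γ₀ : Type*} [LinearOrderedCommGroupWithZero Γ₀]
  (v : Valuation K Γ₀) {W : Affine K}

/-- **PT, in terms of the component function**: a point with `v x ^ p = v a₆` has
`p • rhoN X = h + h`, and `rhoN X = w x`. -/
theorem pt_rhoN {b₂ : K} {h : Additive (Γ₀ˣ)ᵒᵈ} (C : CoreN (ofValuation v) b₂ W.a₆ h) {p : ℕ}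
    (hp : 3 ≤ p) {x y : K} (hxy : W.Nonsingular x y) (hx : v x ^ p = v W.a₆) :
    rhoN (ofValuation v) h (Point.some x y hxy) = (ofValuation v).w x ∧
      p • rhoN (ofValuation v) h (Point.some x y hxy) = h + h := by
  have hp0 : p ≠ 0 := by omega
  have ha₆0 : W.a₆ ≠ 0 := C.ha₆.1
  have hx0 : x ≠ 0 := by
    rintro rfl
    rw [map_zero, zero_pow hp0] at hx
    exact ha₆0 ((map_eq_zero v).mp hx.symm)
  have hw : p • (ofValuation v).w x = h + h := by
    rw [← (ofValuation v).w_pow hx0 p, ← C.ha₆.2]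
    exact (w_eq_w_iff v (pow_ne_zero p hx0) ha₆0).mpr (by rw [map_pow, hx])
  have hh := C.hh
  -- `0 < w x < h`
  have hpos : 0 < (ofValuation v).w x := by
    by_contra hle
    rw [not_lt] at hle
    have h1 : p • (ofValuation v).w x ≤ 0 := nsmul_nonpos hle p
    rw [hw] at h1
    exact absurd (add_pos hh hh) (not_lt.mpr h1)
  have hlt : (ofValuation v).w x < h := by
    by_contra hge
    rw [not_lt] at hge
    have h1 : 3 • h ≤ p • (ofValuation v).w x :=
      (nsmul_le_nsmul_left hh.le hp).trans (nsmul_le_nsmul_right hge p)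
    rw [hw, succ_nsmul, two_nsmul] at h1
    have h3 : h + h + h ≤ h + h + 0 := by rwa [add_zero]
    exact absurd hh (not_lt.mpr (le_of_add_le_add_left h3))
  have hne : (Point.some x y hxy : W.Point) ≠ 0 := fun h0 => by cases h0
  have hρ : rhoN (ofValuation v) h (Point.some x y hxy) = (ofValuation v).w x := by
    rw [rhoN_of_ne hne, px_some, AVal.cl_of_ex (AVal.ex_of_ne hx0), max_eq_left hpos.le,
      min_eq_left hlt.le]
  exact ⟨hρ, by rw [hρ, hw]⟩

end Rho

section Map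

variable {K : Type*} [Field K] [DecidableEq K] {Γ₀ : Type*} [LinearOrderedCommGroupWithZero Γ₀]
  {R S : Type*} [CommRing R] [CommRing S] [Algebra R S] [Algebra R K] [Algebra S K]
  [IsScalarTower R S K]

/-- the discriminant of a translate. -/
theorem pt_transl_Δ (W : WeierstrassCurve K) (r t : K) : (transl r t • W).Δ = W.Δ := by
  rw [variableChange_Δ]
  have : (((transl r t).u⁻¹ : Kˣ) : K) = 1 := by
    show (((1 : Kˣ)⁻¹ : Kˣ) : K) = 1
    simp
  rw [this, one_pow, one_mul]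

/-- `σ` fixes the coefficient `a₆` of the translate. -/
theorem pt_map_transl_a₆ (W' : Affine R) {r t : K} (σ : K →ₐ[S] K) (hσr : σ r = r)
    (hσt : σ t = t) : σ (transl r t • (W'⁄K)).a₆ = (transl r t • (W'⁄K)).a₆ := by
  have c₁ : σ (W'⁄K).a₁ = (W'⁄K).a₁ := by
    change σ (W'.map (algebraMap R K)).a₁ = _
    rw [WeierstrassCurve.map_a₁]; exact algHom_coeff σ _
  have c₂ : σ (W'⁄K).a₂ = (W'⁄K).a₂ := by
    change σ (W'.map (algebraMap R K)).a₂ = _
    rw [WeierstrassCurve.map_a₂]; exact algHom_coeff σ _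
  have c₃ : σ (W'⁄K).a₃ = (W'⁄K).a₃ := by
    change σ (W'.map (algebraMap R K)).a₃ = _
    rw [WeierstrassCurve.map_a₃]; exact algHom_coeff σ _
  have c₄ : σ (W'⁄K).a₄ = (W'⁄K).a₄ := by
    change σ (W'.map (algebraMap R K)).a₄ = _
    rw [WeierstrassCurve.map_a₄]; exact algHom_coeff σ _
  have c₆ : σ (W'⁄K).a₆ = (W'⁄K).a₆ := by
    change σ (W'.map (algebraMap R K)).a₆ = _
    rw [WeierstrassCurve.map_a₆]; exact algHom_coeff σ _
  rw [transl_a₆]
  simp only [map_sub, map_add, map_mul, map_pow, c₁, c₂, c₃, c₄, c₆, hσr, hσt]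

/-- **PT, in the setting of `Lib/MultRed/Unipotent.lean`**: a point of `W'⁄K` in the component
of order `p`, fixed by every `σ` which is trivial modulo the maximal ideal and fixes
`r, t, α, β, x`. -/
theorem pt_exists_map [IsAlgClosed K] (v : Valuation K Γ₀) (W' : Affine R) {r t α β : K}
    (nf : NodalNF v ((transl r t) • (W'⁄K)).toAffine α β) (h2 : v 2 = 1) {p : ℕ} (hp : 3 ≤ p)
    (hΔ : (W'⁄K).Δ ≠ 0) {x : K} (hx : v x ^ p = v (W'⁄K).Δ) :
    ∃ (y : K) (h₀ : ((transl r t) • (W'⁄K)).toAffine.Nonsingular x y),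
      IsNodePt v (Point.some x y h₀) ∧
      ∀ σ : K →ₐ[S] K, (∀ a, v a ≤ 1 → v (σ a - a) < 1) → σ r = r → σ t = t → σ α = α →
        σ β = β → σ x = x →
        Point.map σ (vcHom (W₁ := (W'⁄K)) (transl r t) rfl (Point.some x y h₀)) =
          vcHom (W₁ := (W'⁄K)) (transl r t) rfl (Point.some x y h₀) := by
  have hΔ' : ((transl r t) • (W'⁄K)).Δ = (W'⁄K).Δ := pt_transl_Δ _ r t
  have ha₆ : ((transl r t) • (W'⁄K)).toAffine.a₆ ≠ 0 := by
    intro h0
    apply hΔ
    rw [← hΔ', Δ_of_normal _ nf.a₃ nf.a₄]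
    have h0' : ((transl r t) • (W'⁄K)).a₆ = 0 := h0
    rw [h0']
    ring
  have hx' : v x ^ p = v ((transl r t) • (W'⁄K)).toAffine.a₆ := by
    rw [hx, ← hΔ']
    exact nf.v_Δ
  obtain ⟨y, h₀, hnode, hfix⟩ := pt_exists_pow nf h2 hp ha₆ hx'
  refine ⟨y, h₀, hnode, ?_⟩
  intro σ hσ hσr hσt hσα hσβ hσx
  have hσy : σ y = y :=
    hfix (σ : K →+* K) hσ hσx hσα hσβ (pt_map_transl_a₆ W' σ hσr hσt)
  rw [vcHom_apply, vcFun_some, Point.map_some]
  simp only [vcX_transl, vcY_transl, map_add, hσx, hσy, hσr, hσt]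

end Map

end Fermat.Agent.R38T
end MergeWrap_R38_T_Pt

section MergeWrap_R38_T_PtQbar -- from R38/T/PtQbar.lean

set_option autoImplicit false
set_option linter.unusedSectionVars false

open WeierstrassCurve WeierstrassCurve.Affine

namespace Fermat.Agent.R38T

open Fermat.Agent.MultRed Fermat.Agent.MultRed.Comp S05H65 S05H27 Fermat.Agent.VarChange S05H5

local notation "Qb" => AlgebraicClosure ℚ

/-- the valuation of an integer prime to `p` at a place over `p`. -/
theorem pt_val_intCast_eq_one {p : ℕ} (hp : p.Prime) (A : ValuationSubring Qb)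
    (hA : A.LiesOverPrime p) {u : ℤ} (hu : ¬ (p : ℤ) ∣ u) : A.valuation ((u : ℤ) : Qb) = 1 := by
  have h1 : ¬ p ∣ u.natAbs := fun h => hu (Int.natCast_dvd.mpr h)
  have h2 := Fermat.Agent.EllRed.valuation_natCast_eq_one (K := Qb) hp hA h1
  have h3 : A.valuation (((u.natAbs : ℕ) : ℤ) : Qb) = 1 := by
    rw [Int.cast_natCast]
    exact h2
  rcases Int.natAbs_eq u with h | h
  · rw [h]
    exact h3
  · rw [h, Int.cast_neg, Valuation.map_neg]
    exact h3

/-- the discriminant of `W⁄ℚ̄`. -/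
theorem pt_Δ_map_int (W : WeierstrassCurve ℤ) :
    ((W.map (Int.castRingHom ℚ))⁄Qb).Δ = ((W.Δ : ℤ) : Qb) := by
  show ((W.map (Int.castRingHom ℚ)).map (algebraMap ℚ Qb)).Δ = _
  rw [WeierstrassCurve.map_Δ, WeierstrassCurve.map_Δ]
  simp

/-- **PT over `ℚ̄`**: an inertia-fixed point in the component of order `p`. -/
theorem pt_exists_Qbar (W : WeierstrassCurve ℤ) {p : ℕ} (hp : p.Prime) (hp2 : p ≠ 2)
    [DecidableEq Qb] (A : ValuationSubring Qb) (hA : A.LiesOverPrime p)
    {m : ℕ} {u : ℤ} (hu : ¬ (p : ℤ) ∣ u) (hΔm : W.Δ = (p : ℤ) ^ (p * m) * u)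
    {r t α β : Qb}
    (nf : NodalNF A.valuation ((transl r t) • ((W.map (Int.castRingHom ℚ))⁄Qb)).toAffine α β)
    (hfix : ∀ σ : Qb ≃ₐ[ℚ] Qb, σ ∈ A.inertiaSubgroupIn ℚ →
      σ r = r ∧ σ t = t ∧ σ α = α ∧ σ β = β) :
    ∃ (y : Qb)
      (h₀ : ((transl r t) • ((W.map (Int.castRingHom ℚ))⁄Qb)).toAffine.Nonsingular
        ((p : Qb) ^ m) y),
      IsNodePt A.valuation (Point.some ((p : Qb) ^ m) y h₀) ∧
      ∀ σ : Qb ≃ₐ[ℚ] Qb, σ ∈ A.inertiaSubgroupIn ℚ →
        σ • (vcHom (W₁ := ((W.map (Int.castRingHom ℚ))⁄Qb)) (transl r t) rfl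
            (Point.some ((p : Qb) ^ m) y h₀)) =
          vcHom (W₁ := ((W.map (Int.castRingHom ℚ))⁄Qb)) (transl r t) rfl
            (Point.some ((p : Qb) ^ m) y h₀) := by
  have hp3 : 3 ≤ p := by
    have := hp.two_le
    omega
  have h2 : A.valuation (2 : Qb) = 1 := by
    have h := Fermat.Agent.EllRed.valuation_natCast_eq_one (K := Qb) hp hA (n := 2)
      (fun hd => hp2 ((Nat.prime_dvd_prime_iff_eq hp Nat.prime_two).mp hd))
    exact_mod_cast h
  have hp0 : (p : Qb) ≠ 0 := Nat.cast_ne_zero.mpr hp.ne_zero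
  have hu0 : u ≠ 0 := by
    rintro rfl
    exact hu (dvd_zero _)
  have hΔE : ((W.map (Int.castRingHom ℚ))⁄Qb).Δ = (p : Qb) ^ (p * m) * ((u : ℤ) : Qb) := by
    rw [pt_Δ_map_int, hΔm]
    push_cast
    ring
  have hΔ0 : ((W.map (Int.castRingHom ℚ))⁄Qb).Δ ≠ 0 := by
    rw [hΔE]
    exact mul_ne_zero (pow_ne_zero _ hp0) (Int.cast_ne_zero.mpr hu0)
  have hx : A.valuation ((p : Qb) ^ m) ^ p = A.valuation ((W.map (Int.castRingHom ℚ))⁄Qb).Δ := by
    rw [hΔE, map_mul, pt_val_intCast_eq_one hp A hA hu, mul_one, map_pow, map_pow, ← pow_mul,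
      mul_comm m p]
  obtain ⟨y, h₀, hnode, hmap⟩ := pt_exists_map (S := ℚ) A.valuation
    (W.map (Int.castRingHom ℚ)).toAffine nf h2 hp3 hΔ0 hx
  refine ⟨y, h₀, hnode, ?_⟩
  intro σ hσ
  obtain ⟨hσr, hσt, hσα, hσβ⟩ := hfix σ hσ
  have hσ1 : ∀ a : Qb, A.valuation a ≤ 1 → A.valuation (σ.toAlgHom a - a) < 1 := by
    intro a ha
    rw [A.valuation_le_one_iff] at ha
    exact A.mem_nonunits_iff.mp (inertiaIn_sub_mem_nonunits A σ hσ ha)
  have hσx : σ.toAlgHom ((p : Qb) ^ m) = (p : Qb) ^ m := by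
    rw [map_pow, map_natCast]
  exact hmap σ.toAlgHom hσ1 hσr hσt hσα hσβ hσx

end Fermat.Agent.R38T
end MergeWrap_R38_T_PtQbar

section MergeWrap_R38_T_LeafPt -- from R38/T/LeafPt.lean

set_option autoImplicit false
set_option linter.unusedSectionVars false

open WeierstrassCurve WeierstrassCurve.Affine

namespace Fermat.Agent.R38T

open Fermat.Agent.MultRed Fermat.Agent.MultRed.Comp S05H65 S05H27 Fermat.Agent.VarChange S05H5
  S05H75

local notation "Qb" => AlgebraicClosure ℚ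

section Abs

variable {K : Type*} [Field K] {G : Type*} [AddCommGroup G] [LinearOrder G] [IsOrderedAddMonoid G]
  {V : AVal K G} {h : G}

/-- the clamped valuation of an element of the maximal ideal is positive -/
theorem lpt_cl_pos_of_gt (hh : 0 < h) {x : K} (hx : V.Gt x 0) : 0 < V.cl h x := by
  rcases AVal.regime V h x with ⟨α, h1, hα⟩ | ⟨α, h1, hα, hα'⟩ | h1
  · exact absurd (h1.not_gt hx) (not_lt.mpr hα)
  · rw [AVal.cl_of_ex h1]
    grind
  · rw [AVal.cl_of_ge hh h1]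
    exact hh

/-- a multiple of `2h` in `[0, h]` is zero -/
theorem lpt_eq_zero_of_zsmul {a : G} (hh : 0 < h) (h0 : 0 ≤ a) (h1 : a ≤ h) {k : ℤ}
    (hk : a = k • (h + h)) : a = 0 := by
  have hN : 0 < h + h := add_pos hh hh
  rcases lt_trichotomy k 0 with hk0 | hk0 | hk0
  · exfalso
    have h2 : k • (h + h) ≤ (-1 : ℤ) • (h + h) :=
      zsmul_le_zsmul_left hN.le (by omega)
    rw [neg_smul, one_smul, ← hk] at h2
    have h3 : -(h + h) < 0 := neg_neg_of_pos hN
    exact absurd h0 (not_le.mpr (h2.trans_lt h3))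
  · rw [hk, hk0, zero_smul]
  · exfalso
    have h2 : (1 : ℤ) • (h + h) ≤ k • (h + h) :=
      zsmul_le_zsmul_left hN.le (by omega)
    rw [one_smul, ← hk] at h2
    have h3 : h < h + h := lt_add_of_pos_left h hh
    exact absurd (h3.trans_le h2) (not_lt.mpr h1)

end Abs

section Rho

variable {K : Type*} [Field K] [DecidableEq K]
  {G : Type*} [AddCommGroup G] [LinearOrder G] [IsOrderedAddMonoid G]
  {W : WeierstrassCurve.Affine K} {V : AVal K G} {b₂ a₆ : K} {h : G}

/-- if `p • rhoN X = 2h` then `rhoN (p • X) = 0` -/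
theorem lpt_rhoN_nsmul_eq_zero (N : NodalB W b₂ a₆) (C : CoreN V b₂ a₆ h) (X : W.Point) {p : ℕ}
    (hX : p • rhoN V h X = h + h) : rhoN V h (p • X) = 0 := by
  have hh := C.hh
  have h1 := (rho_nsmul_simN (rhoN (W := W) V h) (h + h) rhoN_zero (rhoN_pairRel N C) X p).1
  rw [hX] at h1
  obtain ⟨m, h2 | h2⟩ := h1
  · refine lpt_eq_zero_of_zsmul hh (rhoN_nonneg hh _) (rhoN_le hh _) (k := m + 1) ?_
    rw [h2, add_smul, one_smul]
    abel
  · refine lpt_eq_zero_of_zsmul hh (rhoN_nonneg hh _) (rhoN_le hh _) (k := m - 1) ?_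
    rw [h2, sub_smul, one_smul]
    abel

/-- MATCH, abstract form: two points in the same component or in opposite components -/
theorem lpt_rhoN_match (N : NodalB W b₂ a₆) (C : CoreN V b₂ a₆ h) (X Y : W.Point)
    (hXY : rhoN V h X = rhoN V h Y) : rhoN V h (X - Y) = 0 ∨ rhoN V h (X + Y) = 0 := by
  have hr := rhoN_rel (V := V) N C X Y
  rw [hXY] at hr
  rcases hr with ⟨h1, -⟩ | ⟨h1, -⟩
  · right
    rw [h1, sub_self, max_self]
  · left
    rw [h1, sub_self, max_self]

end Rho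

section Node

variable {K : Type*} [Field K] [DecidableEq K] {Γ₀ : Type*} [LinearOrderedCommGroupWithZero Γ₀]
  {v : Valuation K Γ₀} {W : WeierstrassCurve.Affine K} {h : Additive (Γ₀ˣ)ᵒᵈ}

/-- a node point has positive component function -/
theorem lpt_rhoN_pos_of_isNodePt (hh : 0 < h) {P : W.Point} (hP : IsNodePt v P) :
    0 < rhoN (ofValuation v) h P := by
  rcases P with _ | ⟨x, y, hxy⟩
  · exact absurd hP (fun h => h)
  · have hne : (Point.some x y hxy : W.Point) ≠ 0 := by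
      intro h0
      exact Point.some_ne_zero _ h0
    rw [rhoN_of_ne hne]
    apply lpt_cl_pos_of_gt hh
    rw [← lt_one_iff_gt]
    exact hP.1

theorem lpt_not_isNodePt_of_rhoN (hh : 0 < h) {P : W.Point}
    (hP : rhoN (ofValuation v) h P = 0) : ¬ IsNodePt v P := by
  intro hn
  have := lpt_rhoN_pos_of_isNodePt (h := h) hh hn
  rw [hP] at this
  exact lt_irrefl _ this

/-- the parameters of the component function of a curve in nodal normal form -/
theorem lpt_exists_coreN [IsAlgClosed K] {α β : K} (nf : NodalNF v W α β) (ha₆0 : W.a₆ ≠ 0) :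
    ∃ h : Additive (Γ₀ˣ)ᵒᵈ, CoreN (ofValuation v) W.b₂ W.a₆ h := by
  obtain ⟨δ, hδ⟩ := IsAlgClosed.exists_pow_nat_eq W.a₆ (n := 2) (by norm_num)
  have hδ0 : δ ≠ 0 := by
    rintro rfl
    apply ha₆0
    rw [← hδ]
    ring
  have ha₆ : (ofValuation v).Ex W.a₆ ((ofValuation v).w δ + (ofValuation v).w δ) := by
    rw [← hδ]
    exact (AVal.ex_of_ne hδ0).sq
  have hh : 0 < (ofValuation v).w δ := by
    have h1 : (ofValuation v).Gt W.a₆ 0 := (lt_one_iff_gt v _).mp nf.va₆
    have h2 := ha₆.not_gt h1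
    by_contra hc
    rw [not_lt] at hc
    have : (ofValuation v).w δ + (ofValuation v).w δ ≤ 0 := add_nonpos hc hc
    exact absurd h2 (not_lt.mpr this)
  have hb₂ : (ofValuation v).Ex W.b₂ 0 := by
    rw [← eq_one_iff_ex]
    have hb : W.b₂ = (α - β) ^ 2 := by
      have h1 := nf.hsum
      have h2 := nf.hprod
      simp only [WeierstrassCurve.b₂]
      have ha₁ : W.a₁ = -(α + β) := by rw [h1]; ring
      have ha₂ : W.a₂ = -(α * β) := by rw [h2]; ring
      rw [ha₁, ha₂]
      ring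
    rw [hb, map_pow, nf.vαβ, one_pow]
  exact ⟨(ofValuation v).w δ,
    { h2 := ge_ofNat (ofValuation v) 2
      hb₂ := hb₂
      ha₆ := ha₆
      hh := hh }⟩

end Node

section Core

variable {K : Type*} [Field K] [DecidableEq K] [IsAlgClosed K] {A : ValuationSubring K}

/-- **PT + MATCH, abstract form**: `E` an integral model, its translate `E'` in nodal normal form,
`X'` a point of `E'` whose `x`-coordinate has `v x ^ p = v Δ`, `E⁰[p] ⊆ E¹`. -/
theorem lpt_core (E : Affine K) (hint : IntCoeff A E) {r t α β : K} (hr : A.valuation r ≤ 1)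
    (ht : A.valuation t ≤ 1) (nf : NodalNF A.valuation ((transl r t) • E).toAffine α β)
    (hΔ : E.Δ ≠ 0) {p : ℕ} (hp : p.Prime) (hp2 : p ≠ 2) {x₀ y₀ : K}
    (h₀ : ((transl r t) • E).toAffine.Nonsingular x₀ y₀)
    (hx₀ : A.valuation x₀ ^ p = A.valuation E.Δ)
    (hE0p : ∀ x : E.Point, p • x = 0 → InE0v A x → InG1 A.valuation x) :
    InE0v A (p • vcHom (W₁ := E) (transl r t) rfl (Point.some x₀ y₀ h₀)) ∧
      ∀ x : E.Point, p • x = 0 → ¬ InG1 A.valuation x →
        ∃ j : ℕ, ¬ p ∣ j ∧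
          InE0v A (vcHom (W₁ := E) (transl r t) rfl (Point.some x₀ y₀ h₀) - j • x) := by
  have hp3 : 3 ≤ p := by
    have := hp.two_le
    omega
  have hΔ' : ((transl r t) • E).Δ = E.Δ := pt_transl_Δ _ r t
  have ha₆0 : ((transl r t) • E).toAffine.a₆ ≠ 0 := by
    intro h0
    apply hΔ
    rw [← hΔ', Δ_of_normal _ nf.a₃ nf.a₄]
    have h0' : ((transl r t) • E).a₆ = 0 := h0
    rw [h0']
    ring
  have hx' : A.valuation x₀ ^ p = A.valuation ((transl r t) • E).toAffine.a₆ := by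
    rw [hx₀, ← hΔ']
    exact nf.v_Δ
  obtain ⟨h, C⟩ := lpt_exists_coreN nf ha₆0
  have hh := C.hh
  have N := nodalB_of_a₃_a₄ ((transl r t) • E).toAffine nf.a₃ nf.a₄
  obtain ⟨hρX, hpX⟩ := pt_rhoN A.valuation C hp3 h₀ hx'
  -- the bridge between the translate and the original model
  have bridge : ∀ P' : ((transl r t) • E).toAffine.Point,
      rhoN (ofValuation A.valuation) h P' = 0 → InE0v A (vcHom (W₁ := E) (transl r t) rfl P') := by
    intro P' hP'
    rw [← not_isSingPt_iff_inE0v]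
    intro hs
    exact lpt_not_isNodePt_of_rhoN hh hP'
      (isNodePt_of_isSingPt A.valuation E ((A.valuation_le_one_iff _).mpr hint.mem_a₁)
        ((A.valuation_le_one_iff _).mpr hint.mem_a₂) ((A.valuation_le_one_iff _).mpr hint.mem_a₃)
        ((A.valuation_le_one_iff _).mpr hint.mem_a₄) ((A.valuation_le_one_iff _).mpr hint.mem_a₆)
        hr ht nf P' hs)
  refine ⟨?_, ?_⟩
  · rw [← map_nsmul]
    exact bridge _ (lpt_rhoN_nsmul_eq_zero N C _ hpX)
  · intro x hx hxG
    obtain ⟨x', hx'x⟩ := exists_vcHom_eq E r t x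
    have hpx' : p • x' = 0 := by
      apply vcHom_injective (W₁ := E) (transl r t) rfl
      rw [map_nsmul, hx'x, hx, map_zero]
    have hsing : IsSingPt A.valuation x := by
      by_contra hns
      exact hxG (hE0p x hx ((not_isSingPt_iff_inE0v x).mp hns))
    have hnode : IsNodePt A.valuation x' :=
      isNodePt_of_isSingPt A.valuation E ((A.valuation_le_one_iff _).mpr hint.mem_a₁)
        ((A.valuation_le_one_iff _).mpr hint.mem_a₂) ((A.valuation_le_one_iff _).mpr hint.mem_a₃)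
        ((A.valuation_le_one_iff _).mpr hint.mem_a₄) ((A.valuation_le_one_iff _).mpr hint.mem_a₆)
        hr ht nf x' (by rw [hx'x]; exact hsing)
    have hρx' : rhoN (ofValuation A.valuation) h x' ≠ 0 :=
      ne_of_gt (lpt_rhoN_pos_of_isNodePt hh hnode)
    obtain ⟨g, i₀, hg0, hpg, hi₀, -⟩ := cyc_structure
      (rhoN (W := ((transl r t) • E).toAffine) (ofValuation A.valuation) h) h rhoN_zero
      (fun P => ⟨rhoN_nonneg hh P, rhoN_le hh P⟩) (rhoN_pairRel N C) hp hp2 x' hpx' hρx'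
    -- `rhoN X' = g`
    have hgX : rhoN (ofValuation A.valuation) h (Point.some x₀ y₀ h₀) = g := by
      have h1 : p • (rhoN (ofValuation A.valuation) h (Point.some x₀ y₀ h₀) - g) = 0 := by
        rw [smul_sub, hpX, hpg, sub_self]
      exact sub_eq_zero.mp (nsmul_eq_zero_imp hp.pos h1)
    have hi₀p : ¬ p ∣ i₀ := by
      rintro ⟨k, rfl⟩
      rw [mul_comm, mul_smul, hpx', smul_zero, rhoN_zero] at hi₀
      exact absurd hi₀.symm (ne_of_gt hg0)
    rcases lpt_rhoN_match N C (Point.some x₀ y₀ h₀) (i₀ • x') (hgX.trans hi₀.symm) with h1 | h1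
    · refine ⟨i₀, hi₀p, ?_⟩
      have := bridge _ h1
      rwa [map_sub, map_nsmul, hx'x] at this
    · refine ⟨(p - 1) * i₀, ?_, ?_⟩
      · intro hd
        rcases (Nat.Prime.dvd_mul hp).mp hd with h2 | h2
        · have := Nat.le_of_dvd (by omega) h2
          omega
        · exact hi₀p h2
      · have := bridge _ h1
        rw [map_add, map_nsmul, hx'x] at this
        have e : ((p - 1) * i₀) • x = -(i₀ • x) := by
          have h3 : ((p - 1) * i₀) • x + i₀ • x = 0 := by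
            rw [← add_smul]
            have : (p - 1) * i₀ + i₀ = i₀ * p := by
              have h4 : p - 1 + 1 = p := by omega
              calc (p - 1) * i₀ + i₀ = (p - 1 + 1) * i₀ := by ring
                _ = i₀ * p := by rw [h4, mul_comm]
            rw [this, mul_smul, hx, smul_zero]
          exact eq_neg_of_add_eq_zero_left h3
        rw [e, sub_neg_eq_add]
        exact this

end Core

section Main

/-- **leaf `LeafPT`** for an integral model with `Δ = p ^ (p m) u`, `p ∤ u`, `p ∤ c₄`, `p` odd. -/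
theorem leafPT (W : WeierstrassCurve ℤ) {p : ℕ} (hp : p.Prime) (hp2 : p ≠ 2)
    (A : ValuationSubring Qb) (hA : A.LiesOverPrime p) (hΔ : (p : ℤ) ∣ W.Δ)
    (hc₄ : ¬ (p : ℤ) ∣ W.c₄) {m : ℕ} {u : ℤ} (hu : ¬ (p : ℤ) ∣ u)
    (hΔm : W.Δ = (p : ℤ) ^ (p * m) * u) : LeafPT W p A := by
  classical
  have : Fact p.Prime := ⟨hp⟩
  obtain ⟨r, t, α, β, hr, ht, nf, hfix⟩ := exists_nodalNF W hΔ hc₄ A hA
  have hint := intCoeff_map_int W A
  obtain ⟨y, h₀, -, hXfix⟩ := pt_exists_Qbar W hp hp2 A hA hu hΔm nf hfix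
  have hp0 : (p : Qb) ≠ 0 := Nat.cast_ne_zero.mpr hp.ne_zero
  have hu0 : u ≠ 0 := by
    rintro rfl
    exact hu (dvd_zero _)
  have hΔE : ((W.map (Int.castRingHom ℚ))⁄Qb).Δ = (p : Qb) ^ (p * m) * ((u : ℤ) : Qb) := by
    rw [pt_Δ_map_int, hΔm]
    push_cast
    ring
  have hΔ0 : ((W.map (Int.castRingHom ℚ))⁄Qb).Δ ≠ 0 := by
    rw [hΔE]
    exact mul_ne_zero (pow_ne_zero _ hp0) (Int.cast_ne_zero.mpr hu0)
  have hx : A.valuation ((p : Qb) ^ m) ^ p = A.valuation ((W.map (Int.castRingHom ℚ))⁄Qb).Δ := by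
    rw [hΔE, map_mul, pt_val_intCast_eq_one hp A hA hu, mul_one, map_pow, map_pow, ← pow_mul,
      mul_comm m p]
  obtain ⟨h1, h2⟩ := lpt_core ((W.map (Int.castRingHom ℚ))⁄Qb).toAffine hint hr ht nf hΔ0 hp hp2
    h₀ hx (fun x hx h0 => inG1_of_inE0v_of_pow_smul W hΔ hc₄ A hA 1 x (by rwa [pow_one]) h0)
  exact ⟨_, hXfix, h1, h2⟩

end Main



end Fermat.Agent.R38T
end MergeWrap_R38_T_LeafPt

section MergeWrap_R38_T_Final -- from R38/T/Final.lean

/-!
# Row 38, block T: the Frey curve at `p ∣ a b c` is "peu ramifie" at `p` (owner: helper39)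

`peuFrey : PeuFreyStatement`: for a Frey package `P` with `p ∣ a b c` and every place `A ∣ p` of
`Q̄` there is a unit `a` of the maximal unramified extension, `a ≡ 1` modulo the maximal ideal,
such that every element of the inertia group at `A` fixing `ζ_p` and a `p`-th root of `a` acts
trivially on the `p`-torsion of the Frey curve.

Leaves: `Kum.lean`, `KumMap.lean`, `Span.lean` (helper77), `Pt.lean`, `PtQbar.lean`, `LeafPt.lean`
(helper4), `Kill.lean` (helper26), `FreyData.lean` (helper6),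
`Defs.lean`, `Asm.lean`, `KumQ.lean`, `KillQ.lean`, `FinalOf.lean` (helper39).
-/

set_option autoImplicit false

open WeierstrassCurve WeierstrassCurve.Affine

namespace Fermat.Agent.R38T

/-- **block T**: the `p`-torsion of the Frey curve is "peu ramifie" at `p ∣ a b c` (Kummer form) -/
theorem peuFrey : PeuFreyStatement := by
  intro P hp A hA
  obtain ⟨m, u, -, hu, hΔm⟩ := freyData_Δ_eq P hp
  have hp2 : P.p ≠ 2 := by
    have := P.hp5
    omega
  exact peuFrey_of_leafPT P hp A hA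
    (leafPT P.freyCurveInt P.pp hp2 A hA (freyData_dvd_Δ P hp) (freyData_not_dvd_c₄ P hp) hu hΔm)

/-- the same for the integral model `W = P.freyCurveInt` -/
theorem peuFreyInt (P : FreyPackage) (hp : (P.p : ℤ) ∣ P.a * P.b * P.c)
    (A : ValuationSubring (AlgebraicClosure ℚ)) (hA : A.LiesOverPrime P.p) :
    PeuKummer (P.freyCurveInt.map (Int.castRingHom ℚ)) P.p A := by
  rw [Fermat.Agent.FreyLib.freyCurveInt_map]
  exact peuFrey P hp A hA

end Fermat.Agent.R38T
end MergeWrap_R38_T_Final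

section MergeWrap_R38_T_SpJT -- from R38/T/SpJT.lean

/-!
# Row 38: the junction `SpJT` of the spine (block T; helper77, helper39, helper13, helper4,
helper26, helper6, helper91)

`spJT : SpJT`: the Kummer form of "peu ramifie" for the integral Frey model `P.freyCurveInt`
at `p ∣ a b c`.
-/

set_option autoImplicit false

namespace Fermat.Agent.R38T

/-- **junction J-T** of the spine of row 38. -/
theorem spJT : Fermat.Agent.R38.SpJT := fun P hp A hA => peuFreyInt P hp A hA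

end Fermat.Agent.R38T
end MergeWrap_R38_T_SpJT
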